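import Mathlib

/-!
# S55 / layer KL, leaf Q3 (helper919): Mathlib-only core

`Subsingleton (groupCohomology (B.quotientToInvariants V) 3)` implies that every inhomogeneous
3-cocycle `z : G × G × G → B` which is inflated from `(G ⧸ V, B^V)` (constant on cosets of `V` in
each variable, values fixed by `V`) is `d₂₃` of a 2-cochain inflated from `(G ⧸ V, B^V)`.

All statements are spelled out with Mathlib notions only, so that the file is independent of the
location of the interface (`KL/Spec.lean`); the adapter to `Q3Spec` is a one-liner.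

Main results:
* `d34_apply_h919`, `d23_apply_h919` : explicit formulas for the differentials `C³ → C⁴`, `C² → C³`
  of Mathlib's `inhomogeneousCochains`;
* `exists_of_d34_eq_zero_h919` : `H³ = 0` ⇒ every 3-cocycle is a coboundary (Mathlib complex);
* `h3VanishAt_of_subsingleton_h919` : the statement of `Q3Spec`, unfolded.
-/

set_option autoImplicit false

open CategoryTheory groupCohomology

namespace Fermat.Agent.S55.H919

section General

universe u

variable {k G : Type u} [CommRing k] [Group G] (A : Rep k G)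

theorem contractNth_zero_four_h919 (g : Fin 4 → G) :
    Fin.contractNth (0 : Fin 4) (· * ·) g = ![g 0 * g 1, g 2, g 3] := by
  ext i; fin_cases i <;> rfl

theorem contractNth_one_four_h919 (g : Fin 4 → G) :
    Fin.contractNth (1 : Fin 4) (· * ·) g = ![g 0, g 1 * g 2, g 3] := by
  ext i; fin_cases i <;> rfl

theorem contractNth_two_four_h919 (g : Fin 4 → G) :
    Fin.contractNth (2 : Fin 4) (· * ·) g = ![g 0, g 1, g 2 * g 3] := by
  ext i; fin_cases i <;> rfl

theorem contractNth_three_four_h919 (g : Fin 4 → G) :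
    Fin.contractNth (3 : Fin 4) (· * ·) g = ![g 0, g 1, g 2] := by
  ext i; fin_cases i <;> rfl

theorem contractNth_zero_three_h919 (g : Fin 3 → G) :
    Fin.contractNth (0 : Fin 3) (· * ·) g = ![g 0 * g 1, g 2] := by
  ext i; fin_cases i <;> rfl

theorem contractNth_one_three_h919 (g : Fin 3 → G) :
    Fin.contractNth (1 : Fin 3) (· * ·) g = ![g 0, g 1 * g 2] := by
  ext i; fin_cases i <;> rfl

theorem contractNth_two_three_h919 (g : Fin 3 → G) :
    Fin.contractNth (2 : Fin 3) (· * ·) g = ![g 0, g 1] := by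
  ext i; fin_cases i <;> rfl

/-- The differential `C³(G, A) → C⁴(G, A)` of Mathlib's complex of inhomogeneous cochains. -/
theorem d34_apply_h919 (f : (Fin 3 → G) → A) (g : Fin 4 → G) :
    (inhomogeneousCochains.d A 3).hom f g =
      A.ρ (g 0) (f ![g 1, g 2, g 3]) - f ![g 0 * g 1, g 2, g 3] + f ![g 0, g 1 * g 2, g 3]
        - f ![g 0, g 1, g 2 * g 3] + f ![g 0, g 1, g 2] := by
  rw [inhomogeneousCochains.d_hom_apply]
  rw [Fin.sum_univ_four, contractNth_zero_four_h919, contractNth_one_four_h919,
    contractNth_two_four_h919, contractNth_three_four_h919]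
  have e : (fun i : Fin 3 => g i.succ) = ![g 1, g 2, g 3] := by
    ext i; fin_cases i <;> rfl
  rw [e]
  simp only [Fin.val_zero, Fin.val_one, Fin.val_two, zero_add, pow_one, neg_smul, one_smul]
  norm_num
  abel

/-- The differential `C²(G, A) → C³(G, A)` of Mathlib's complex of inhomogeneous cochains. -/
theorem d23_apply_h919 (f : (Fin 2 → G) → A) (g : Fin 3 → G) :
    (inhomogeneousCochains.d A 2).hom f g =
      A.ρ (g 0) (f ![g 1, g 2]) - f ![g 0 * g 1, g 2] + f ![g 0, g 1 * g 2]
        - f ![g 0, g 1] := by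
  rw [inhomogeneousCochains.d_hom_apply]
  rw [Fin.sum_univ_three, contractNth_zero_three_h919, contractNth_one_three_h919,
    contractNth_two_three_h919]
  have e : (fun i : Fin 2 => g i.succ) = ![g 1, g 2] := by
    ext i; fin_cases i <;> rfl
  rw [e]
  simp only [Fin.val_zero, Fin.val_one, Fin.val_two, zero_add, pow_one, neg_smul, one_smul]
  norm_num
  abel

/-- If `H³(G, A) = 0`, every 3-cocycle of Mathlib's complex of inhomogeneous cochains is a
coboundary. -/
theorem exists_of_d34_eq_zero_h919 (h : Subsingleton (groupCohomology A 3))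
    (f : (Fin 3 → G) → A) (hf : (inhomogeneousCochains.d A 3).hom f = 0) :
    ∃ b : (Fin 2 → G) → A, (inhomogeneousCochains.d A 2).hom b = f := by
  have hz : Limits.IsZero (groupCohomology A 3) := ModuleCat.isZero_of_subsingleton _
  have hex : (inhomogeneousCochains A).ExactAt 3 :=
    (HomologicalComplex.exactAt_iff_isZero_homology _ _).mpr hz
  rw [HomologicalComplex.exactAt_iff' _ 2 3 4 (by simp) (by simp)] at hex
  rw [ShortComplex.moduleCat_exact_iff] at hex
  obtain ⟨b, hb⟩ := hex f (by
    change ((inhomogeneousCochains A).d 3 4).hom f = 0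
    rw [inhomogeneousCochains.d_def]
    exact hf)
  refine ⟨b, ?_⟩
  have hb' : ((inhomogeneousCochains A).d 2 3).hom b = f := hb
  rw [inhomogeneousCochains.d_def] at hb'
  exact hb'

end General

section Main

variable {G : Type} [Group G] (B : Rep.{0, 0, 0} ℤ G) (V : Subgroup G) [V.Normal]

/-- **KL-Q3** (unfolded form of `Q3Spec`): if Mathlib's `H³(G ⧸ V, B^V)` vanishes then every
3-cocycle `z : G × G × G → B` inflated from `(G ⧸ V, B^V)` is `d₂₃` of a 2-cochain inflated from
`(G ⧸ V, B^V)`. -/
theorem h3VanishAt_of_subsingleton_h919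
    (h : Subsingleton (groupCohomology (B.quotientToInvariants V) 3))
    (z : G × G × G → B)
    (hz : ∀ g h i s t u : G, s ∈ V → t ∈ V → u ∈ V →
      z (g * s, h * t, i * u) = z (g, h, i) ∧ B.ρ s (z (g, h, i)) = z (g, h, i))
    (hc : ∀ g h i j : G,
      B.ρ g (z (h, i, j)) - z (g * h, i, j) + z (g, h * i, j) - z (g, h, i * j)
        + z (g, h, i) = 0) :
    ∃ b : G × G → B,
      (∀ g h s t : G, s ∈ V → t ∈ V →
        b (g * s, h * t) = b (g, h) ∧ B.ρ s (b (g, h)) = b (g, h)) ∧
      (d₂₃ B).hom b = z := by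
  classical
  -- `z` only depends on the cosets
  have hzq : ∀ g h i g' h' i' : G, (g : G ⧸ V) = g' → (h : G ⧸ V) = h' → (i : G ⧸ V) = i' →
      z (g, h, i) = z (g', h', i') := by
    intro g h i g' h' i' e1 e2 e3
    have h1 := QuotientGroup.eq.mp e1
    have h2 := QuotientGroup.eq.mp e2
    have h3 := QuotientGroup.eq.mp e3
    have := (hz g h i _ _ _ h1 h2 h3).1
    simpa using this.symm
  -- the cochain on the quotient
  let zbar : (Fin 3 → G ⧸ V) → (B.quotientToInvariants V) := fun x =>
    ⟨z ((x 0).out, (x 1).out, (x 2).out), fun s => (hz _ _ _ s.1 1 1 s.2 V.one_mem V.one_mem).2⟩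
  have zbar_mk : ∀ g h i : G,
      ((zbar ![(g : G ⧸ V), (h : G ⧸ V), (i : G ⧸ V)] : (B.quotientToInvariants V)) : B)
        = z (g, h, i) := by
    intro g h i
    exact hzq _ _ _ _ _ _ (QuotientGroup.out_eq' _) (QuotientGroup.out_eq' _)
      (QuotientGroup.out_eq' _)
  have hρ : ∀ (g : G) (a : (B.quotientToInvariants V)),
      (((B.quotientToInvariants V).ρ (g : G ⧸ V) a : (B.quotientToInvariants V)) : B)
        = B.ρ g (a : B) := fun g a => rfl
  -- `zbar` is a cocycle
  have hzbar : (inhomogeneousCochains.d (B.quotientToInvariants V) 3).hom zbar = 0 := by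
    funext x
    obtain ⟨g0, hg0⟩ := QuotientGroup.mk_surjective (s := V) (x 0)
    obtain ⟨g1, hg1⟩ := QuotientGroup.mk_surjective (s := V) (x 1)
    obtain ⟨g2, hg2⟩ := QuotientGroup.mk_surjective (s := V) (x 2)
    obtain ⟨g3, hg3⟩ := QuotientGroup.mk_surjective (s := V) (x 3)
    rw [d34_apply_h919]
    apply Subtype.ext
    rw [← hg0, ← hg1, ← hg2, ← hg3]
    simp only [← QuotientGroup.mk_mul]
    push_cast
    rw [hρ, zbar_mk, zbar_mk, zbar_mk, zbar_mk, zbar_mk]
    exact hc g0 g1 g2 g3
  obtain ⟨bbar, hbbar⟩ := exists_of_d34_eq_zero_h919 _ h zbar hzbar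
  refine ⟨fun x => ((bbar ![(x.1 : G ⧸ V), (x.2 : G ⧸ V)] : (B.quotientToInvariants V)) : B),
    ?_, ?_⟩
  · intro g h s t hs ht
    refine ⟨?_, ?_⟩
    · simp only [QuotientGroup.mk_mul_of_mem _ hs, QuotientGroup.mk_mul_of_mem _ ht]
    · exact (bbar ![(g : G ⧸ V), (h : G ⧸ V)]).2 ⟨s, hs⟩
  · funext x
    obtain ⟨g, h, i⟩ := x
    rw [d₂₃_hom_apply]
    have key := congrArg (fun f => ((f ![(g : G ⧸ V), (h : G ⧸ V), (i : G ⧸ V)] :
      (B.quotientToInvariants V)) : B)) hbbar
    simp only at key
    rw [zbar_mk, d23_apply_h919] at key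
    rw [← key]
    push_cast
    rw [hρ]
    rfl

end Main

end Fermat.Agent.S55.H919
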